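import Fermat.Agent.Mazur.Wp.Series
import Fermat.Agent.ModField.Elliptic

/-!
# The invariants of `ℤ τ + ℤ` and its transport under `SL₂(ℤ)`
-/

set_option autoImplicit false

noncomputable section

namespace FA.Mazur.Wp

open UpperHalfPlane hiding I
open Complex FA.ModField EisensteinSeries ModularForm Matrix.SpecialLinearGroup
open scoped Real MatrixGroups

variable (τ : ℍ)

theorem G_latPair {k : ℕ} (hk : 3 ≤ k) :
    (latPair τ).G k = 2 * riemannZeta k * (ModularForm.E (k := k) hk) τ := by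
  have h1 : (latPair τ).G k = ∑' v : Fin 2 → ℤ, eisSummand k v τ := by
    rw [PeriodPair.G, ← (latPair τ).latticeEquivProd.symm.toEquiv.tsum_eq,
      ← (finTwoArrowEquiv ℤ).tsum_eq]
    refine tsum_congr fun v => ?_
    rw [LinearEquiv.coe_toEquiv, PeriodPair.latticeEquiv_symm_apply, eisSummand, zpow_neg,
      zpow_natCast]
    simp [latPair]
  have h2 : (ModularForm.E (k := k) hk) τ =
      (1 / 2 : ℂ) * eisensteinSeries (N := 1) 0 k τ := rfl
  rw [h1, tsum_eisSummand_eq_riemannZeta_mul_eisensteinSeries hk, h2]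
  ring

theorem zeta_six : riemannZeta 6 = π ^ 6 / 945 := by
  have h := riemannZeta_two_mul_nat (k := 3) (by norm_num)
  rw [show bernoulli (2 * 3) = 1 / 42 by decide +kernel] at h
  norm_num [Nat.factorial] at h ⊢
  rw [h]
  ring

theorem g₂_latPair : (latPair τ).g₂ = tpi ^ 4 / 12 * E₄ τ := by
  rw [PeriodPair.g₂, G_latPair τ (by norm_num : 3 ≤ 4),
    show ((4 : ℕ) : ℂ) = 4 by norm_num, riemannZeta_four, tpi, mul_pow, mul_pow, I_pow_four]
  show _ = _ * (ModularForm.E (k := 4) _) τ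
  ring

theorem g₃_latPair : (latPair τ).g₃ = -(tpi ^ 6 / 216) * E₆ τ := by
  rw [PeriodPair.g₃, G_latPair τ (by norm_num : 3 ≤ 6),
    show ((6 : ℕ) : ℂ) = 6 by norm_num, zeta_six, tpi, mul_pow, mul_pow,
    show (I : ℂ) ^ 6 = -1 by rw [show (I : ℂ) ^ 6 = (I ^ 2) ^ 3 by ring, I_sq]; norm_num]
  show _ = _ * (ModularForm.E (k := 6) _) τ
  ring

theorem discr_latPair :
    (latPair τ).g₂ ^ 3 - 27 * (latPair τ).g₃ ^ 2 = tpi ^ 12 * ModularForm.discriminant τ := by
  rw [g₂_latPair, g₃_latPair, ModularForm.discriminant_eq_E₄_cube_sub_E₆_sq]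
  ring

theorem discr_latPair_ne_zero : (latPair τ).g₂ ^ 3 - 27 * (latPair τ).g₃ ^ 2 ≠ 0 := by
  rw [discr_latPair]
  exact mul_ne_zero (pow_ne_zero _ tpi_ne_zero) (ModularForm.discriminant_ne_zero τ)

/-- `c τ + d`. -/
def den (g : SL(2, ℤ)) (z : ℍ) : ℂ := (g 1 0 : ℂ) * z + g 1 1

theorem den_ne_zero (g : SL(2, ℤ)) (z : ℍ) : den g z ≠ 0 := by
  have h := UpperHalfPlane.denom_ne_zero g z
  rwa [ModularGroup.denom_apply] at h

theorem smul_mul_den (g : SL(2, ℤ)) (z : ℍ) :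
    ((g • z : ℍ) : ℂ) * den g z = (g 0 0 : ℂ) * z + g 0 1 := by
  rw [UpperHalfPlane.specialLinearGroup_apply]
  simp only [algebraMap_int_eq, Int.coe_castRingHom]
  exact div_mul_cancel₀ _ (den_ne_zero g z)

theorem det_int (g : SL(2, ℤ)) : g 0 0 * g 1 1 - g 0 1 * g 1 0 = 1 := by
  have h := Matrix.SpecialLinearGroup.det_coe g
  rwa [Matrix.det_fin_two] at h

theorem mem_latPair_smul (g : SL(2, ℤ)) (x : ℂ) :
    x ∈ (latPair (g • τ)).lattice ↔ x * den g τ ∈ (latPair τ).lattice := by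
  have hA := smul_mul_den g τ
  have hdet := det_int g
  rw [mem_latPair, mem_latPair]
  constructor
  · rintro ⟨m, n, rfl⟩
    refine ⟨m * g 0 0 + n * g 1 0, m * g 0 1 + n * g 1 1, ?_⟩
    rw [add_mul, mul_assoc, hA, den]
    push_cast
    ring
  · rintro ⟨m, n, h⟩
    refine ⟨g 1 1 * m - g 1 0 * n, g 0 0 * n - g 0 1 * m, mul_right_cancel₀ (den_ne_zero g τ) ?_⟩
    rw [← h, add_mul, mul_assoc, hA, den]
    have hdet' : (g 0 0 : ℂ) * g 1 1 - g 0 1 * g 1 0 = 1 := by exact_mod_cast hdet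
    push_cast
    linear_combination ((m : ℂ) * τ + n) * hdet'

theorem weierstrassP_smul (g : SL(2, ℤ)) (z : ℂ) :
    (latPair (g • τ)).weierstrassP z =
      den g τ ^ 2 * (latPair τ).weierstrassP (z * den g τ) := by
  have hj := den_ne_zero g τ
  let e : (latPair (g • τ)).lattice ≃ (latPair τ).lattice :=
    (Equiv.mulRight₀ (den g τ) hj).subtypeEquiv fun x => mem_latPair_smul τ g x
  rw [← ((latPair τ).hasSum_weierstrassP (z * den g τ)).tsum_eq,
    ← ((latPair (g • τ)).hasSum_weierstrassP z).tsum_eq, ← tsum_mul_left, ← e.tsum_eq]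
  refine tsum_congr fun l => ?_
  show _ = den g τ ^ 2 * (1 / (z * den g τ - (l : ℂ) * den g τ) ^ 2 -
    1 / ((l : ℂ) * den g τ) ^ 2)
  rw [← sub_mul, mul_pow, mul_pow]
  field_simp

/-- **The transformation of the values of `℘` at the points of order dividing `p`.** -/
theorem xVal_smul (p : ℕ) (a b : ℤ) (g : SL(2, ℤ)) :
    xVal p a b (g • τ) =
      den g τ ^ 2 * xVal p (a * g 0 0 + b * g 1 0) (a * g 0 1 + b * g 1 1) τ := by
  rw [xVal, xVal, weierstrassP_smul,
    show zPt p a b (g • τ) * den g τ =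
      zPt p (a * g 0 0 + b * g 1 0) (a * g 0 1 + b * g 1 1) τ by
      simp only [zPt]
      rw [div_mul_eq_mul_div, add_mul, mul_assoc, smul_mul_den, den]
      push_cast
      ring]
  ring

theorem slash_apply_of_levelOne {k : ℤ} (f : ModularForm 𝒮ℒ k) (g : SL(2, ℤ)) (z : ℍ) :
    f (g • z) = den g z ^ k * f z := by
  have h := (slash_eq_iff_smul g).1 (SlashInvariantForm.slash_action_eqn f
    (g : GL (Fin 2) ℝ) ⟨g, rfl⟩) z
  rwa [ModularGroup.denom_apply] at h

end FA.Mazur.Wp
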