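import Fermat.Agent.Mazur.Wp.Addition

/-!
# The uniformisation is a homomorphism

The generic case is the chord; every other case follows by inserting an auxiliary point.
-/

set_option autoImplicit false

noncomputable section

namespace FA.Mazur.Wp

open Complex Filter Set WeierstrassCurve
open scoped Topology

variable (L : PeriodPair)

local notation "wp" => PeriodPair.weierstrassP L
local notation "wq" => PeriodPair.derivWeierstrassP L

/-- `y² = x³ - (g₂/4) x - g₃/4`. -/
def latCurve : WeierstrassCurve ℂ := ⟨0, 0, 0, -L.g₂ / 4, -L.g₃ / 4⟩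

theorem latCurve_Δ : (latCurve L).Δ = L.g₂ ^ 3 - 27 * L.g₃ ^ 2 := by
  simp only [latCurve, WeierstrassCurve.Δ, b₂, b₄, b₆, b₈]
  ring

theorem latCurve_c₄ : (latCurve L).c₄ = 12 * L.g₂ := by
  simp only [latCurve, WeierstrassCurve.c₄, b₂, b₄]
  ring

theorem latCurve_c₆ : (latCurve L).c₆ = 216 * L.g₃ := by
  simp only [latCurve, WeierstrassCurve.c₆, b₂, b₄, b₆]
  ring

variable [(latCurve L).IsElliptic]

omit [(latCurve L).IsElliptic] in
theorem equation_latCurve {z : ℂ} (hz : z ∉ L.lattice) :
    (latCurve L).toAffine.Equation (wp z) (wq z / 2) := by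
  rw [Affine.equation_iff]
  simp only [latCurve]
  linear_combination (1 / 4 : ℂ) * L.derivWeierstrassP_sq z hz

open Classical in
/-- The uniformisation. -/
def unif (z : ℂ) : (latCurve L).toAffine.Point :=
  if hz : z ∈ L.lattice then 0 else
    .some (wp z) (wq z / 2) (Affine.equation_iff_nonsingular.1 (equation_latCurve L hz))

theorem unif_of_mem {z : ℂ} (hz : z ∈ L.lattice) : unif L z = 0 := dif_pos hz

theorem unif_of_notMem {z : ℂ} (hz : z ∉ L.lattice) : unif L z =
    .some (wp z) (wq z / 2) (Affine.equation_iff_nonsingular.1 (equation_latCurve L hz)) :=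
  dif_neg hz

theorem unif_eq_zero_iff {z : ℂ} : unif L z = 0 ↔ z ∈ L.lattice := by
  refine ⟨fun h => ?_, unif_of_mem L⟩
  by_contra hz
  rw [unif_of_notMem L hz] at h
  exact Affine.Point.some_ne_zero _ h

theorem unif_add_mem {z l : ℂ} (hl : l ∈ L.lattice) : unif L (z + l) = unif L z := by
  by_cases hz : z ∈ L.lattice
  · rw [unif_of_mem L hz, unif_of_mem L (add_mem hz hl)]
  · have hzl : z + l ∉ L.lattice := fun h => hz (by simpa using sub_mem h hl)
    rw [unif_of_notMem L hz, unif_of_notMem L hzl]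
    simp only [(wp_sub_coe L hl).1, (wp_sub_coe L hl).2]

theorem unif_neg (z : ℂ) : unif L (-z) = -unif L z := by
  by_cases hz : z ∈ L.lattice
  · rw [unif_of_mem L hz, unif_of_mem L (neg_mem hz), neg_zero]
  · have hz' : -z ∉ L.lattice := fun h => hz (by simpa using neg_mem h)
    rw [unif_of_notMem L hz, unif_of_notMem L hz', Affine.Point.neg_some]
    simp only [Affine.Point.some.injEq, L.weierstrassP_neg, L.derivWeierstrassP_neg,
      Affine.negY, latCurve, neg_div]
    exact ⟨trivial, by ring⟩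

omit [(latCurve L).IsElliptic] in
/-- The ordinate of a sum. -/
theorem wq_add {z w : ℂ} (hz : z ∉ L.lattice) (hw : w ∉ L.lattice) (hne : wp z ≠ wp w) :
    wq (z + w) = -((wq z - wq w) / (wp z - wp w) * (wp (z + w) - wp z) + wq z) := by
  obtain ⟨hzw, hadd⟩ := wp_add L hz hw hne
  let F : ℂ → ℂ := fun t => ((wq t - wq w) / (wp t - wp w)) ^ 2 / 4 - wp t - wp w
  have hev : ∀ᶠ t in 𝓝 z, wp (t + w) = F t := by
    filter_upwards [(isOpen_latticeCompl L).mem_nhds hz,
      (analyticAt_wp L hz).continuousAt.eventually_ne hne] with t ht ht'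
    exact (wp_add L ht hw ht').2
  have hd : wp z - wp w ≠ 0 := sub_ne_zero.2 hne
  have h1 := hasDerivAt_wp L hz
  have h2 := hasDerivAt_wq L hz
  have hF : HasDerivAt F _ z :=
    ((((h2.sub_const (wq w)).div (h1.sub_const (wp w)) hd).pow 2).div_const 4 |>.sub h1).sub_const
      (wp w)
  have hG : HasDerivAt (fun t => wp (t + w)) (wq (z + w)) z :=
    (hasDerivAt_wp L hzw).comp_add_const z w
  have h := hG.unique (hF.congr_of_eventuallyEq hev)
  rw [h, hadd]
  have o1 := L.derivWeierstrassP_sq z hz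
  have o2 := L.derivWeierstrassP_sq w hw
  simp only [Nat.cast_ofNat, Nat.reduceSub, pow_one, Pi.div_apply]
  field_simp
  grind

theorem unif_add_of_ne {z w : ℂ} (hz : z ∉ L.lattice) (hw : w ∉ L.lattice) (hne : wp z ≠ wp w) :
    unif L z + unif L w = unif L (z + w) := by
  obtain ⟨hzw, hadd⟩ := wp_add L hz hw hne
  rw [unif_of_notMem L hz, unif_of_notMem L hw, unif_of_notMem L hzw,
    Affine.Point.add_of_X_ne hne]
  simp only [Affine.Point.some.injEq]
  rw [Affine.slope_of_X_ne hne, wq_add L hz hw hne, hadd]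
  simp only [Affine.addX, Affine.addY, Affine.negAddY, Affine.negY, latCurve]
  have hd : wp z - wp w ≠ 0 := sub_ne_zero.2 hne
  constructor <;> field_simp <;> ring

omit [(latCurve L).IsElliptic] in
/-- An auxiliary point. -/
theorem exists_aux {z w : ℂ} (hz : z ∉ L.lattice) (hw : w ∉ L.lattice)
    (hzw : z + w ∉ L.lattice) :
    ∃ u, u ∉ L.lattice ∧ z + u ∉ L.lattice ∧ w - u ∉ L.lattice ∧ wp z ≠ wp u ∧
      wp u ≠ wp (w - u) ∧ wp (z + u) ≠ wp (w - u) := by
  classical
  let V : Set ℂ := ((fun l => l - z) '' L.lattice ∪ (fun l => w - l) '' L.lattice)ᶜ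
  have hmem : ∀ {x}, x ∈ V ↔ z + x ∉ L.lattice ∧ w - x ∉ L.lattice := fun {x} => by
    simp only [V, mem_compl_iff, mem_union, mem_image, not_or, SetLike.mem_coe]
    refine and_congr ⟨fun h h' => h ⟨z + x, h', by ring⟩, ?_⟩ ⟨fun h h' => h ⟨w - x, h', by ring⟩, ?_⟩
    · rintro h ⟨l, hl, rfl⟩
      exact h (by simpa using hl)
    · rintro h ⟨l, hl, rfl⟩
      exact h (by simpa using hl)
  let H : ℂ → ℂ := fun x => wp (z + x) - wp (w - x)
  have hH : AnalyticOnNhd ℂ H V := fun x hx => by
    obtain ⟨h1, h2⟩ := hmem.1 hx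
    exact (AnalyticAt.comp (g := wp) (f := fun y : ℂ => z + y) (analyticAt_wp L h1)
      (analyticAt_const.add analyticAt_id)).sub
      (AnalyticAt.comp (g := wp) (f := fun y : ℂ => w - y) (analyticAt_wp L h2)
        (analyticAt_const.sub analyticAt_id))
  have h0 : (0 : ℂ) ∈ V := hmem.2 ⟨by simpa using hz, by simpa using hw⟩
  have hVo : IsOpen V := by
    have : V = (fun x => z + x) ⁻¹' (L.lattice : Set ℂ)ᶜ ∩ (fun x => w - x) ⁻¹' (L.lattice : Set ℂ)ᶜ :=
      Set.ext fun x => hmem
    rw [this]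
    exact ((isOpen_latticeCompl L).preimage (by fun_prop)).inter
      ((isOpen_latticeCompl L).preimage (by fun_prop))
  -- `℘` is unbounded at the origin
  have hbig : ∀ c : ℂ, ContinuousAt (fun x => wp (c - x)) 0 → ∀ᶠ x in 𝓝[≠] (0 : ℂ),
      wp x ≠ wp (c - x) := by
    intro c hc
    have hk : ContinuousAt (fun x => 1 + (L.weierstrassPExcept 0 x - wp (c - x)) * x ^ 2) 0 :=
      continuousAt_const.add (((analyticAt_except_zero L).1.continuousAt.sub hc).mul
        (continuousAt_id.pow 2))
    filter_upwards [self_mem_nhdsWithin, mem_nhdsWithin_of_mem_nhds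
      (hk.eventually_ne (by simp : (1 : ℂ) + (L.weierstrassPExcept 0 0 - wp (c - 0)) * 0 ^ 2 ≠ 0))]
      with x hx hx' heq
    apply hx'
    rw [← heq, wp_eq_except L x]
    field_simp [show x ≠ 0 from hx]
    ring
  have hcw : ContinuousAt (fun x => wp (w - x)) 0 :=
    ContinuousAt.comp (g := wp) (analyticAt_wp L (by simpa using hw : w - 0 ∉ L.lattice)).continuousAt
      (continuousAt_const.sub continuousAt_id)
  have e2 : ∀ᶠ x in 𝓝[≠] (0 : ℂ), wp x ≠ wp (w - x) := hbig w hcw
  have e1 : ∀ᶠ x in 𝓝[≠] (0 : ℂ), wp z ≠ wp x := by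
    have hk : ContinuousAt (fun x => 1 + (L.weierstrassPExcept 0 x - wp z) * x ^ 2) 0 :=
      continuousAt_const.add (((analyticAt_except_zero L).1.continuousAt.sub continuousAt_const).mul
        (continuousAt_id.pow 2))
    filter_upwards [self_mem_nhdsWithin, mem_nhdsWithin_of_mem_nhds
      (hk.eventually_ne (by simp : (1 : ℂ) + (L.weierstrassPExcept 0 0 - wp z) * 0 ^ 2 ≠ 0))]
      with x hx hx' heq
    apply hx'
    rw [heq, wp_eq_except L x]
    field_simp [show x ≠ 0 from hx]
    ring
  have e3 : ∀ᶠ x in 𝓝[≠] (0 : ℂ), H x ≠ 0 := by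
    refine ((hH 0 h0).eventually_eq_zero_or_eventually_ne_zero).resolve_left fun hz0 => ?_
    -- then `H` vanishes on `V`, but it is unbounded near `-z`
    have hconn : IsPreconnected V := isPreconnected_compl_countable
      (((countable_lattice L).image _).union ((countable_lattice L).image _))
    have hall := hH.eqOn_zero_of_preconnected_of_eventuallyEq_zero hconn h0 hz0
    have hc : ContinuousAt (fun x => wp (z + w - x)) 0 :=
      ContinuousAt.comp (g := wp)
        (analyticAt_wp L (by simpa using hzw : z + w - 0 ∉ L.lattice)).continuousAt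
        (continuousAt_const.sub continuousAt_id)
    have hV : ∀ᶠ x in 𝓝[≠] (0 : ℂ), -z + x ∈ V := by
      filter_upwards [eventually_notMem_zero L, mem_nhdsWithin_of_mem_nhds
        ((continuousAt_const.sub continuousAt_id).eventually
          ((isOpen_latticeCompl L).eventually_mem (by simpa using hzw :
            z + w - (0 : ℂ) ∉ L.lattice)))] with x hx hx'
      refine hmem.2 ⟨by simpa using hx, ?_⟩
      rw [show w - (-z + x) = z + w - x by ring]
      exact hx'
    obtain ⟨x, hx, hx'⟩ := ((hbig (z + w) hc).and hV).exists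
    refine hx (sub_eq_zero.1 ?_)
    have := hall hx'
    simp only [H, Pi.zero_apply, show z + (-z + x) = x by ring,
      show w - (-z + x) = z + w - x by ring] at this
    exact this
  obtain ⟨u, ⟨⟨h1, h2⟩, h3⟩, h4, h5⟩ := ((((e1.and e2).and e3).and
    ((eventually_notMem_zero L).and (mem_nhdsWithin_of_mem_nhds (hVo.mem_nhds h0))))).exists
  exact ⟨u, h4, (hmem.1 h5).1, (hmem.1 h5).2, h1, h2, fun h => h3 (sub_eq_zero.2 h)⟩

theorem unif_add (z w : ℂ) : unif L (z + w) = unif L z + unif L w := by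
  by_cases hz : z ∈ L.lattice
  · rw [unif_of_mem L hz, zero_add, add_comm, unif_add_mem L hz]
  by_cases hw : w ∈ L.lattice
  · rw [unif_of_mem L hw, add_zero, unif_add_mem L hw]
  by_cases hzw : z + w ∈ L.lattice
  · rw [unif_of_mem L hzw, show w = -z + (z + w) by ring, unif_add_mem L hzw, unif_neg,
      add_neg_cancel]
  obtain ⟨u, hu, hzu, hwu, h1, h2, h3⟩ := exists_aux L hz hw hzw
  have e1 := unif_add_of_ne L hz hu h1
  have e2 := unif_add_of_ne L hu hwu h2
  have e3 := unif_add_of_ne L hzu hwu h3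
  rw [add_sub_cancel] at e2
  rw [show z + u + (w - u) = z + w by ring] at e3
  rw [← e3, ← e1, ← e2, add_assoc]

/-- The uniformisation as a homomorphism. -/
def unifHom : ℂ →+ (latCurve L).toAffine.Point := AddMonoidHom.mk' (unif L) (unif_add L)

theorem unifHom_apply (z : ℂ) : unifHom L z = unif L z := rfl

theorem unif_eq_unif_iff {z w : ℂ} : unif L z = unif L w ↔ z - w ∈ L.lattice := by
  rw [← unifHom_apply, ← unifHom_apply, ← sub_eq_zero, ← map_sub, unifHom_apply, unif_eq_zero_iff]

end FA.Mazur.Wp
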