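import Mathlib

/-!
# The addition theorem for `℘`

The chord through two points `(℘, ℘')` meets the cubic again in the point of the negative of the
sum of the arguments: the chord expression is constant along `t + u = s` by the differential
equation and tends to `℘ s` at `t = 0`.
-/

set_option autoImplicit false

noncomputable section

namespace FA.Mazur.Wp

open Complex Filter Set
open scoped Topology

variable (L : PeriodPair)

local notation "wp" => PeriodPair.weierstrassP L
local notation "wq" => PeriodPair.derivWeierstrassP L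

theorem isOpen_latticeCompl : IsOpen ((L.lattice : Set ℂ)ᶜ) := L.isClosed_lattice.isOpen_compl

theorem analyticAt_wp {z : ℂ} (hz : z ∉ L.lattice) : AnalyticAt ℂ wp z :=
  L.analyticOnNhd_weierstrassP z hz

theorem analyticAt_wq {z : ℂ} (hz : z ∉ L.lattice) : AnalyticAt ℂ wq z :=
  L.analyticOnNhd_derivWeierstrassP z hz

theorem hasDerivAt_wp {z : ℂ} (hz : z ∉ L.lattice) : HasDerivAt wp (wq z) z := by
  have h := (analyticAt_wp L hz).differentiableAt.hasDerivAt
  rwa [L.deriv_weierstrassP] at h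

theorem countable_lattice : (L.lattice : Set ℂ).Countable :=
  Set.countable_coe_iff.1 (L.latticeEquivProd.toEquiv.countable_iff.2 inferInstance)

theorem isPreconnected_compl_countable {S : Set ℂ} (hS : S.Countable) : IsPreconnected Sᶜ :=
  (hS.isPathConnected_compl_of_one_lt_rank
    (by rw [Complex.rank_real_complex]; exact Nat.one_lt_ofNat)).isConnected.isPreconnected

theorem wp_sub_coe {z l : ℂ} (hl : l ∈ L.lattice) : wp (z + l) = wp z ∧ wq (z + l) = wq z :=
  ⟨L.weierstrassP_add_coe z ⟨l, hl⟩, L.derivWeierstrassP_add_coe z ⟨l, hl⟩⟩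

theorem wp_eq_except (z : ℂ) :
    wp z = L.weierstrassPExcept 0 z + 1 / z ^ 2 := by
  have h := L.weierstrassPExcept_def 0 z
  simp only [ZeroMemClass.coe_zero, sub_zero, ne_eq, OfNat.ofNat_ne_zero, not_false_eq_true,
    zero_pow, div_zero, zero_sub] at h
  rw [h]; ring

theorem wq_eq_except (z : ℂ) :
    wq z = L.derivWeierstrassPExcept 0 z - 2 / z ^ 3 := by
  have h := L.derivWeierstrassPExcept_def 0 z
  simp only [ZeroMemClass.coe_zero, sub_zero] at h
  rw [h]; ring

theorem analyticAt_except_zero : AnalyticAt ℂ (L.weierstrassPExcept 0) 0 ∧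
    AnalyticAt ℂ (L.derivWeierstrassPExcept 0) 0 :=
  ⟨L.analyticAt_weierstrassPExcept 0, L.analyticAt_derivWeierstrassPExcept 0⟩

theorem except_zero : L.weierstrassPExcept 0 0 = 0 := by
  have h := L.weierstrassPExcept_def 0 0
  simp only [ZeroMemClass.coe_zero, sub_zero, L.weierstrassP_zero] at h
  rw [h]; simp

theorem eventually_notMem_zero : ∀ᶠ z in 𝓝[≠] (0 : ℂ), z ∉ L.lattice := by
  filter_upwards [self_mem_nhdsWithin, mem_nhdsWithin_of_mem_nhds
    (L.compl_lattice_sdiff_singleton_mem_nhds 0)] with w hw hw'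
  intro h
  exact hw' ⟨h, hw⟩

/-- `℘'' = 6 ℘² - g₂ / 2`. -/
theorem hasDerivAt_wq {z : ℂ} (hz : z ∉ L.lattice) :
    HasDerivAt wq (6 * wp z ^ 2 - L.g₂ / 2) z := by
  let V : Set ℂ := (L.lattice : Set ℂ)ᶜ
  let F : ℂ → ℂ := fun x => deriv wq x - (6 * wp x ^ 2 - L.g₂ / 2)
  have hF : AnalyticOnNhd ℂ F V := fun x hx =>
    (analyticAt_wq L hx).deriv.sub
      (((analyticAt_const (v := (6 : ℂ))).mul ((analyticAt_wp L hx).pow 2)).sub analyticAt_const)
  suffices ∀ x ∈ V, F x = 0 by
    have h := this z hz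
    rw [sub_eq_zero] at h
    rw [← h]
    exact (analyticAt_wq L hz).differentiableAt.hasDerivAt
  -- near the origin `℘'` has no zero
  have hne : ∀ᶠ x in 𝓝[≠] (0 : ℂ), x ∉ L.lattice ∧ wq x ≠ 0 := by
    have hc : ContinuousAt (fun x => L.derivWeierstrassPExcept 0 x * x ^ 3 - 2) 0 :=
      ((analyticAt_except_zero L).2.continuousAt.mul (continuousAt_id.pow 3)).sub continuousAt_const
    filter_upwards [eventually_notMem_zero L, self_mem_nhdsWithin,
      mem_nhdsWithin_of_mem_nhds (hc.eventually_ne (by norm_num : (L.derivWeierstrassPExcept 0 0 *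
        (0 : ℂ) ^ 3 - 2) ≠ 0))] with x hx hx0 hx'
    refine ⟨hx, fun h => hx' ?_⟩
    rw [wq_eq_except, sub_eq_zero] at h
    show L.derivWeierstrassPExcept 0 x * x ^ 3 - 2 = 0
    rw [h, div_mul_cancel₀ _ (pow_ne_zero 3 hx0), sub_self]
  obtain ⟨x₀, hx₀, hx₀'⟩ := hne.exists
  have hev : F =ᶠ[𝓝 x₀] 0 := by
    filter_upwards [(isOpen_latticeCompl L).mem_nhds hx₀,
      (analyticAt_wq L hx₀).continuousAt.eventually_ne hx₀'] with x hx hx'
    have h1 : HasDerivAt (fun t => wq t ^ 2) (2 * wq x * deriv wq x) x := by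
      simpa using ((analyticAt_wq L hx).differentiableAt.hasDerivAt).fun_pow 2
    have h2 : HasDerivAt (fun t => 4 * wp t ^ 3 - L.g₂ * wp t - L.g₃)
        (4 * (3 * wp x ^ 2 * wq x) - L.g₂ * wq x) x := by
      simpa using ((((hasDerivAt_wp L hx).fun_pow 3).const_mul 4).sub
        ((hasDerivAt_wp L hx).const_mul L.g₂)).sub_const L.g₃
    have h3 := h1.unique (h2.congr_of_eventuallyEq (by
      filter_upwards [(isOpen_latticeCompl L).mem_nhds hx] with t ht
      exact L.derivWeierstrassP_sq t ht))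
    show deriv wq x - (6 * wp x ^ 2 - L.g₂ / 2) = 0
    apply mul_left_cancel₀ (mul_ne_zero two_ne_zero hx')
    linear_combination h3
  intro x hx
  exact hF.eqOn_zero_of_preconnected_of_eventuallyEq_zero
    (isPreconnected_compl_countable (countable_lattice L)) hx₀ hev hx

/-- The chord expression along `t + u = s`. -/
def chord (s t : ℂ) : ℂ :=
  ((wq t - wq (s - t)) / (wp t - wp (s - t))) ^ 2 / 4 - wp t - wp (s - t)

theorem hasDerivAt_chord {s t : ℂ} (ht : t ∉ L.lattice) (hu : s - t ∉ L.lattice)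
    (hne : wp t ≠ wp (s - t)) : HasDerivAt (chord L s) 0 t := by
  have hsub : HasDerivAt (fun x => s - x) (-1 : ℂ) t := (hasDerivAt_id t).const_sub s
  have h1 := hasDerivAt_wp L ht
  have h2 := hasDerivAt_wq L ht
  have h3 : HasDerivAt (fun x => wp (s - x)) (wq (s - t) * -1) t :=
    (hasDerivAt_wp L hu).comp t hsub
  have h4 : HasDerivAt (fun x => wq (s - x)) ((6 * wp (s - t) ^ 2 - L.g₂ / 2) * -1) t :=
    (hasDerivAt_wq L hu).comp t hsub
  have hd : wp t - wp (s - t) ≠ 0 := sub_ne_zero.2 hne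
  have h : HasDerivAt (chord L s) _ t :=
    (((((h2.sub h4).div (h1.sub h3) hd).pow 2).div_const 4).sub h1).sub h3
  refine h.congr_deriv ?_
  have o1 := L.derivWeierstrassP_sq t ht
  have o2 := L.derivWeierstrassP_sq (s - t) hu
  simp only [Nat.cast_ofNat, Nat.reduceSub, pow_one, Pi.sub_apply, Pi.div_apply]
  field_simp
  grind

theorem tendsto_chord {s : ℂ} (hs : s ∉ L.lattice) :
    Tendsto (chord L s) (𝓝[≠] 0) (𝓝 (wp s)) ∧
      ∀ᶠ t in 𝓝[≠] (0 : ℂ), t ∉ L.lattice ∧ s - t ∉ L.lattice ∧ wp t ≠ wp (s - t) := by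
  let a : ℂ → ℂ := fun t => L.weierstrassPExcept 0 t
  let b : ℂ → ℂ := fun t => L.derivWeierstrassPExcept 0 t
  let A : ℂ → ℂ := fun t => a t - wp (s - t)
  let B : ℂ → ℂ := fun t => b t - wq (s - t)
  let K : ℂ → ℂ := fun t =>
    ((B t ^ 2 * t ^ 4 - 4 * B t * t) / 4 - 2 * A t - A t ^ 2 * t ^ 2) / (1 + A t * t ^ 2) ^ 2 -
      a t - wp (s - t)
  have hs0 : (fun t => s - t) 0 ∉ L.lattice := by simpa using hs
  have hsc : ContinuousAt (fun t => s - t) (0 : ℂ) := continuousAt_const.sub continuousAt_id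
  have hps : ContinuousAt (fun t => wp (s - t)) 0 :=
    ContinuousAt.comp (g := wp) (analyticAt_wp L hs0).continuousAt hsc
  have hqs : ContinuousAt (fun t => wq (s - t)) 0 :=
    ContinuousAt.comp (g := wq) (analyticAt_wq L hs0).continuousAt hsc
  have ha : ContinuousAt a 0 := (analyticAt_except_zero L).1.continuousAt
  have hb : ContinuousAt b 0 := (analyticAt_except_zero L).2.continuousAt
  have hA : ContinuousAt A 0 := ha.sub hps
  have hB : ContinuousAt B 0 := hb.sub hqs
  have hden : ContinuousAt (fun t => 1 + A t * t ^ 2) 0 :=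
    continuousAt_const.add (hA.mul (continuousAt_id.pow 2))
  have hden0 : (fun t => 1 + A t * t ^ 2) 0 ≠ 0 := by simp
  have hK : ContinuousAt K 0 := by
    refine ((ContinuousAt.div ?_ (hden.pow 2) (pow_ne_zero 2 hden0)).sub ha).sub hps
    exact ((((hB.pow 2).mul (continuousAt_id.pow 4)).sub
      ((continuousAt_const.mul hB).mul continuousAt_id)).div_const 4 |>.sub
      (continuousAt_const.mul hA)).sub ((hA.pow 2).mul (continuousAt_id.pow 2))
  have hK0 : K 0 = wp s := by
    simp only [K, A, a, except_zero]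
    simp
    ring
  have hev : ∀ᶠ t in 𝓝[≠] (0 : ℂ), t ≠ 0 ∧ t ∉ L.lattice ∧ s - t ∉ L.lattice ∧
      1 + A t * t ^ 2 ≠ 0 := by
    filter_upwards [self_mem_nhdsWithin, eventually_notMem_zero L,
      mem_nhdsWithin_of_mem_nhds (hsc.eventually ((isOpen_latticeCompl L).eventually_mem hs0)),
      mem_nhdsWithin_of_mem_nhds (hden.eventually_ne hden0)] with t h1 h2 h3 h4
    exact ⟨h1, h2, h3, h4⟩
  have hd : ∀ t : ℂ, t ≠ 0 → (wp t - wp (s - t)) * t ^ 2 = 1 + A t * t ^ 2 := fun t ht => by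
    simp only [A, a, wp_eq_except L t]
    field_simp
    ring
  constructor
  · refine (hK0 ▸ hK.tendsto.mono_left nhdsWithin_le_nhds).congr' ?_
    filter_upwards [hev] with t ⟨ht, h1, h2, hne⟩
    have e1 : wq t - wq (s - t) = (B t * t ^ 3 - 2) / t ^ 3 := by
      simp only [B, b, wq_eq_except L t]
      field_simp
      ring
    have e2 : wp t - wp (s - t) = (1 + A t * t ^ 2) / t ^ 2 :=
      eq_div_of_mul_eq (pow_ne_zero 2 ht) (hd t ht)
    show K t = chord L s t
    rw [chord, e1, e2]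
    simp only [K]
    rw [show wp t = a t + 1 / t ^ 2 from wp_eq_except L t]
    generalize A t = α at hne ⊢
    generalize B t = β
    have hne' : 1 + t ^ 2 * α ≠ 0 := by rwa [mul_comm]
    field_simp
    ring
  · filter_upwards [hev] with t ⟨ht, h1, h2, hne⟩
    refine ⟨h1, h2, fun h => hne ?_⟩
    rw [← hd t ht, h, sub_self, zero_mul]

/-- **The addition theorem**, without denominators. -/
theorem chord_relation {s t : ℂ} (hs : s ∉ L.lattice) (ht : t ∉ L.lattice)
    (hu : s - t ∉ L.lattice) :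
    (wq t - wq (s - t)) ^ 2 = 4 * (wp t + wp (s - t) + wp s) * (wp t - wp (s - t)) ^ 2 := by
  classical
  let V : Set ℂ := ((L.lattice : Set ℂ) ∪ (fun l => s - l) '' L.lattice)ᶜ
  have hmem : ∀ {x}, x ∈ V ↔ x ∉ L.lattice ∧ s - x ∉ L.lattice := fun {x} => by
    simp only [V, mem_compl_iff, mem_union, mem_image, not_or, SetLike.mem_coe]
    refine and_congr_right fun _ => ⟨fun h h' => h ⟨s - x, h', by ring⟩, ?_⟩
    rintro h ⟨l, hl, rfl⟩
    exact h (by simpa using hl)
  let H : ℂ → ℂ := fun x =>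
    (wq x - wq (s - x)) ^ 2 - 4 * (wp x + wp (s - x) + wp s) * (wp x - wp (s - x)) ^ 2
  have hH : AnalyticOnNhd ℂ H V := fun x hx => by
    obtain ⟨h1, h2⟩ := hmem.1 hx
    have hsub : AnalyticAt ℂ (fun y => s - y) x := analyticAt_const.sub analyticAt_id
    have p2 : AnalyticAt ℂ (fun y => wp (s - y)) x :=
      AnalyticAt.comp (g := wp) (analyticAt_wp L h2) hsub
    have q2 : AnalyticAt ℂ (fun y => wq (s - y)) x :=
      AnalyticAt.comp (g := wq) (analyticAt_wq L h2) hsub
    exact (((analyticAt_wq L h1).sub q2).pow 2).sub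
      ((analyticAt_const.mul (((analyticAt_wp L h1).add p2).add analyticAt_const)).mul
        (((analyticAt_wp L h1).sub p2).pow 2))
  obtain ⟨hlim, hev⟩ := tendsto_chord L hs
  obtain ⟨ε, hε, hball⟩ := Metric.mem_nhdsWithin_iff.1 hev
  have hball' : ∀ x ∈ Metric.ball (0 : ℂ) ε, x ≠ 0 →
      x ∉ L.lattice ∧ s - x ∉ L.lattice ∧ wp x ≠ wp (s - x) := fun x hx hx0 => hball ⟨hx, hx0⟩
  let G : ℂ → ℂ := Function.update (chord L s) 0 (wp s)
  have hGd : ∀ x ∈ Metric.ball (0 : ℂ) ε, x ≠ 0 → HasDerivAt G 0 x := fun x hx hx0 => by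
    obtain ⟨h1, h2, h3⟩ := hball' x hx hx0
    refine (hasDerivAt_chord L h1 h2 h3).congr_of_eventuallyEq ?_
    filter_upwards [eventually_ne_nhds hx0] with y hy
    exact Function.update_of_ne hy _ _
  have hGc : ContinuousAt G 0 := continuousAt_update_same.2 hlim
  have hGdiff : DifferentiableOn ℂ G (Metric.ball 0 ε) :=
    (Complex.differentiableOn_compl_singleton_and_continuousAt_iff
      (Metric.ball_mem_nhds 0 hε)).1
      ⟨fun x hx => (hGd x hx.1 hx.2).differentiableAt.differentiableWithinAt, hGc⟩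
  have hder : EqOn (deriv G) 0 (Metric.ball 0 ε) := fun x hx => by
    rcases eq_or_ne x 0 with rfl | hx0
    · have hA : AnalyticAt ℂ G 0 := hGdiff.analyticAt (Metric.ball_mem_nhds 0 hε)
      refine tendsto_nhds_unique (hA.deriv.continuousAt.tendsto.mono_left
        (nhdsWithin_le_nhds (s := {(0 : ℂ)}ᶜ))) (tendsto_const_nhds.congr' ?_)
      filter_upwards [self_mem_nhdsWithin,
        mem_nhdsWithin_of_mem_nhds (Metric.ball_mem_nhds 0 hε)] with y hy hy'
      exact ((hGd y hy' hy).deriv).symm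
    · exact (hGd x hx hx0).deriv
  have hzero : ∀ x ∈ Metric.ball (0 : ℂ) ε, x ≠ 0 → H x = 0 := fun x hx hx0 => by
    have h := Metric.isOpen_ball.is_const_of_deriv_eq_zero (convex_ball (0 : ℂ) ε).isPreconnected
      hGdiff hder hx (Metric.mem_ball_self hε)
    simp only [G, Function.update_self, Function.update_of_ne hx0, chord] at h
    have hd : wp x - wp (s - x) ≠ 0 := sub_ne_zero.2 (hball' x hx hx0).2.2
    rw [div_pow, div_div, sub_sub, sub_eq_iff_eq_add, div_eq_iff (mul_ne_zero (pow_ne_zero 2 hd)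
      (by norm_num : (4 : ℂ) ≠ 0))] at h
    simp only [H]
    linear_combination h
  obtain ⟨x₀, hx₀, hx₀0⟩ : ∃ x ∈ Metric.ball (0 : ℂ) ε, x ≠ 0 :=
    ⟨((ε / 2 : ℝ) : ℂ), by simp [abs_of_pos, hε], by exact_mod_cast (by positivity : ε / 2 ≠ 0)⟩
  obtain ⟨h1, h2, -⟩ := hball' x₀ hx₀ hx₀0
  have hev0 : H =ᶠ[𝓝 x₀] 0 := by
    filter_upwards [Metric.isOpen_ball.mem_nhds hx₀, eventually_ne_nhds hx₀0] with y hy hy0
    exact hzero y hy hy0
  have := hH.eqOn_zero_of_preconnected_of_eventuallyEq_zero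
    (isPreconnected_compl_countable ((countable_lattice L).union ((countable_lattice L).image _)))
    (hmem.2 ⟨h1, h2⟩) hev0 (hmem.2 ⟨ht, hu⟩)
  exact sub_eq_zero.1 this

/-- **The chord.** -/
theorem wp_add {z w : ℂ} (hz : z ∉ L.lattice) (hw : w ∉ L.lattice) (hne : wp z ≠ wp w) :
    z + w ∉ L.lattice ∧
      wp (z + w) = ((wq z - wq w) / (wp z - wp w)) ^ 2 / 4 - wp z - wp w := by
  have hzw : z + w ∉ L.lattice := fun h => hne (by
    rw [show wp z = wp (-w + (z + w)) by congr 1; ring, (wp_sub_coe L h).1, L.weierstrassP_neg])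
  refine ⟨hzw, ?_⟩
  have h := chord_relation L hzw hz (by rwa [add_sub_cancel_left])
  rw [add_sub_cancel_left] at h
  have hd : wp z - wp w ≠ 0 := sub_ne_zero.2 hne
  rw [div_pow, h]
  field_simp
  ring

end FA.Mazur.Wp
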