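import Fermat.Agent.ModField.JFunction

/-!
# The expansions of `℘` at the points of order dividing `p`

`℘((a τ + b) / p)` for the lattice `ℤ τ + ℤ` is the sum of its rows, and every row is a geometric
series in `exp (2 π i τ / p)`.
-/

set_option autoImplicit false

noncomputable section

namespace FA.Mazur.Wp

open Filter FA.ModField
open UpperHalfPlane hiding I
open Complex hiding norm_exp
open scoped Topology Real

/-- `2 π i`. -/
def tpi : ℂ := 2 * π * I

theorem tpi_ne_zero : tpi ≠ 0 := two_pi_I_ne_zero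

/-- The lattice `ℤ τ + ℤ`. -/
def latPair (τ : ℍ) : PeriodPair where
  ω₁ := τ
  ω₂ := 1
  indep := by
    rw [LinearIndependent.pair_iff]
    intro s t h
    simp only [Complex.real_smul, mul_one] at h
    have h1 := congrArg Complex.im h
    simp only [Complex.add_im, Complex.mul_im, Complex.ofReal_re, Complex.ofReal_im, zero_mul,
      add_zero, Complex.zero_im, mul_eq_zero] at h1
    have hs : s = 0 := h1.resolve_right τ.im_pos.ne'
    subst hs
    simpa using h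

theorem mem_latPair {τ : ℍ} {x : ℂ} :
    x ∈ (latPair τ).lattice ↔ ∃ m n : ℤ, (m : ℂ) * τ + n = x := by
  rw [PeriodPair.mem_lattice]
  simp [latPair]

/-- `e(b / p)`. -/
def eta (p : ℕ) (b : ℤ) : ℂ := cexp (tpi * b / p)

/-- The point `(a τ + b) / p`. -/
def zPt (p : ℕ) (a b : ℤ) (τ : ℍ) : ℂ := ((a : ℂ) * τ + b) / p

/-- The normalised value of `℘` at `(a τ + b) / p`. -/
def xVal (p : ℕ) (a b : ℤ) (τ : ℍ) : ℂ :=
  (latPair τ).weierstrassP (zPt p a b τ) / tpi ^ 2

/-- The coefficients of the expansion of `xVal` in `exp (2 π i τ / p)`. -/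
def xCoeff {K : Type*} [Field K] (p : ℕ) (a : ℤ) (η : K) : ℕ → K
  | 0 => 1 / 12 + if (p : ℤ) ∣ a then η / (1 - η) ^ 2 else 0
  | N + 1 => ∑ x ∈ Nat.divisorsAntidiagonal (N + 1), (x.1 : K) *
      ((if (p : ℤ) ∣ (x.2 : ℤ) - a then η ^ x.1 else 0) +
        (if (p : ℤ) ∣ (x.2 : ℤ) + a then η⁻¹ ^ x.1 else 0) -
        (if (p : ℤ) ∣ (x.2 : ℤ) then 2 else 0))

theorem map_xCoeff {K K' : Type*} [Field K] [Field K'] (f : K →+* K') (p : ℕ) (a : ℤ) (η : K)
    (N : ℕ) : f (xCoeff p a η N) = xCoeff p a (f η) N := by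
  cases N with
  | zero => simp [xCoeff, apply_ite f, map_div₀, map_ofNat]
  | succ N => simp [xCoeff, apply_ite f, map_inv₀, map_ofNat, map_sum]

/-- The series of `xVal`. -/
def xSer {K : Type*} [Field K] (p : ℕ) (a : ℤ) (η : K) : PowerSeries K :=
  PowerSeries.mk (xCoeff p a η)

theorem map_xSer {K K' : Type*} [Field K] [Field K'] (f : K →+* K') (p : ℕ) (a : ℤ) (η : K) :
    PowerSeries.map f (xSer p a η) = xSer p a (f η) := by
  ext N; simp [xSer, map_xCoeff]

/-- `Σ 1/(w + n)²`, normalised. -/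
def rowSum (w : ℂ) : ℂ := (∑' n : ℤ, 1 / (w + n) ^ 2) / tpi ^ 2

/-- `u / (1 - u)²`. -/
def geoSq (u : ℂ) : ℂ := u / (1 - u) ^ 2

theorem summable_row (w : ℂ) : Summable fun n : ℤ => 1 / (w + n) ^ 2 := by
  have h := EisensteinSeries.linear_right_summable w 1 (k := 2) le_rfl
  refine h.congr fun n => ?_
  rw [one_div, zpow_ofNat, Int.cast_one, one_mul]

theorem hasSum_row (w : ℂ) :
    HasSum (fun n : ℤ => 1 / (w + n) ^ 2 / tpi ^ 2) (rowSum w) :=
  (summable_row w).hasSum.div_const _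

theorem rowSum_neg (w : ℂ) : rowSum (-w) = rowSum w := by
  rw [rowSum, rowSum, ← (Equiv.neg ℤ).tsum_eq]
  congr 1
  refine tsum_congr fun n => ?_
  rw [Equiv.neg_apply, Int.cast_neg, ← neg_add, neg_sq]

theorem rowSum_add_int (w : ℂ) (k : ℤ) : rowSum (w + k) = rowSum w := by
  rw [rowSum, rowSum, ← (Equiv.addRight (-k)).tsum_eq]
  congr 1
  refine tsum_congr fun n => ?_
  simp only [Equiv.coe_addRight, Int.cast_add, Int.cast_neg]
  ring_nf

theorem rowSum_zero : rowSum 0 = -(1 / 12) := by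
  have h : ∑' n : ℤ, 1 / ((0 : ℂ) + n) ^ 2 = 2 * ((π : ℂ) ^ 2 / 6) := by
    have h2 := two_mul_riemannZeta_eq_tsum_int_inv_pow_of_even (k := 2) le_rfl even_two
    rw [Nat.cast_ofNat, riemannZeta_two] at h2
    rw [h2]
    exact tsum_congr fun n => by rw [zero_add, one_div]
  rw [rowSum, h, tpi, mul_pow, I_sq]
  have : (π : ℂ) ≠ 0 := ofReal_ne_zero.2 Real.pi_ne_zero
  field_simp
  ring

theorem rowSum_of_im_pos {w : ℂ} (hw : 0 < w.im) : rowSum w = geoSq (cexp (tpi * w)) := by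
  have h := EisensteinSeries.qExpansion_identity (k := 1) le_rfl ⟨w, hw⟩
  have hu : ‖cexp (tpi * w)‖ < 1 := by
    rw [Complex.norm_exp]
    refine Real.exp_lt_one_iff.2 ?_
    have : (tpi * w).re = -(2 * π * w.im) := by simp [tpi, Complex.mul_re, Complex.mul_im]
    rw [this]
    have := mul_pos Real.pi_pos hw
    linarith
  rw [rowSum]
  simp only [Nat.reduceAdd, pow_one, Nat.factorial_one, Nat.cast_one,
    div_one] at h
  rw [show ((-2 : ℂ) * π * I) ^ 2 = tpi ^ 2 by rw [tpi]; ring] at h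
  rw [h, mul_div_assoc, mul_div_cancel₀]
  swap
  · exact pow_ne_zero 2 tpi_ne_zero
  exact tsum_coe_mul_geometric_of_norm_lt_one hu

theorem rowSum_real {x : ℝ} (hx : ∀ n : ℤ, x + n ≠ 0) :
    rowSum x = geoSq (cexp (tpi * x)) := by
  let w : ℕ → ℂ := fun k => (x : ℂ) + ((1 : ℝ) / (k + 1) : ℝ) * I
  have hw : ∀ k, 0 < (w k).im := fun k => by
    simp only [w, Complex.add_im, Complex.ofReal_im, Complex.mul_im, Complex.I_im, Complex.I_re,
      Complex.ofReal_re, mul_one, mul_zero, zero_add, add_zero]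
    positivity
  have hlim : Tendsto w atTop (𝓝 (x : ℂ)) := by
    have := ((continuous_ofReal.tendsto 0).comp
      tendsto_one_div_add_atTop_nhds_zero_nat).mul_const I
    simpa [w, Function.comp_def] using this.const_add (x : ℂ)
  have h1 : Tendsto (fun k => rowSum (w k)) atTop (𝓝 (rowSum x)) := by
    refine (Tendsto.div_const ?_ _)
    refine tendsto_tsum_of_dominated_convergence (bound := fun n : ℤ => ‖1 / ((x : ℂ) + n) ^ 2‖)
      (summable_row x).norm (fun n => ?_) (Eventually.of_forall fun k n => ?_)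
    · have hne : ((x : ℂ) + n) ^ 2 ≠ 0 := pow_ne_zero 2 (by exact_mod_cast hx n)
      exact Tendsto.div tendsto_const_nhds ((hlim.add_const _).pow 2) hne
    · have hre : (w k + n).re = x + n := by simp [w]
      have hle : ‖(x : ℂ) + n‖ ≤ ‖w k + n‖ := by
        rw [show ((x : ℂ) + n) = ((x + n : ℝ) : ℂ) by push_cast; ring, Complex.norm_real,
          Real.norm_eq_abs, ← hre]
        exact Complex.abs_re_le_norm _
      have hpos : 0 < ‖(x : ℂ) + n‖ := by
        rw [norm_pos_iff]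
        exact_mod_cast hx n
      simp only [norm_div, norm_one, norm_pow]
      gcongr
  have hne : (1 : ℂ) - cexp (tpi * x) ≠ 0 := by
    rw [sub_ne_zero, ne_comm, Ne, Complex.exp_eq_one_iff]
    rintro ⟨n, hn⟩
    rw [tpi, mul_comm (n : ℂ)] at hn
    have h' : ((x : ℝ) : ℂ) = ((n : ℝ) : ℂ) := by
      push_cast
      exact mul_left_cancel₀ two_pi_I_ne_zero hn
    have h2 := Complex.ofReal_injective h'
    exact hx (-n) (by push_cast; linarith)
  have h2 : Tendsto (fun k => geoSq (cexp (tpi * w k))) atTop (𝓝 (geoSq (cexp (tpi * x)))) := by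
    have hc : Tendsto (fun k => cexp (tpi * w k)) atTop (𝓝 (cexp (tpi * x))) :=
      (Complex.continuous_exp.tendsto _).comp (hlim.const_mul tpi)
    exact hc.div ((tendsto_const_nhds.sub hc).pow 2) (pow_ne_zero 2 hne)
  exact tendsto_nhds_unique (h1.congr fun k => rowSum_of_im_pos (hw k)) h2

/-- `℘` as the sum of its rows. -/
theorem hasSum_rows (τ : ℍ) (z : ℂ) :
    HasSum (fun m : ℤ => rowSum (z + m * τ) - rowSum (m * τ))
      ((latPair τ).weierstrassP z / tpi ^ 2) := by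
  have h := ((latPair τ).latticeEquivProd.symm.toEquiv.hasSum_iff.2
    ((latPair τ).hasSum_weierstrassP z)).div_const (tpi ^ 2)
  have h' := h.prod_fiberwise (g := fun m : ℤ => rowSum (z - m * τ) - rowSum (m * τ)) fun m => ?_
  · refine ((Equiv.neg ℤ).hasSum_iff.2 h').congr_fun fun m => ?_
    simp only [Function.comp_apply, Equiv.neg_apply, Int.cast_neg, neg_mul, sub_neg_eq_add,
      rowSum_neg]
  · have h1 := (Equiv.neg ℤ).hasSum_iff.2 (hasSum_row (z - m * τ))
    refine (h1.sub (hasSum_row (m * τ))).congr_fun fun n => ?_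
    simp only [Function.comp_apply, Equiv.neg_apply, Int.cast_neg]
    rw [LinearEquiv.coe_toEquiv, PeriodPair.latticeEquiv_symm_apply]
    simp only [latPair, mul_one]
    ring

/-! ### Rows as sums over a residue class -/

variable {p : ℕ}

/-- The term `(M, d)` of a residue class. -/
def partTerm (p : ℕ) (r : ℤ) (η u : ℂ) (x : ℕ+ × ℕ+) : ℂ :=
  if (p : ℤ) ∣ (x.1 : ℤ) - r then (x.2 : ℂ) * (η * u ^ (x.1 : ℕ)) ^ (x.2 : ℕ) else 0

theorem norm_eta (p : ℕ) (b : ℤ) : ‖eta p b‖ = 1 := by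
  rw [eta, Complex.norm_exp]
  simp [tpi, Complex.div_natCast_re, Complex.mul_re, Complex.mul_im]

theorem eta_inv (p : ℕ) (b : ℤ) : (eta p b)⁻¹ = eta p (-b) := by
  rw [eta, eta, ← Complex.exp_neg]
  congr 1
  push_cast
  ring

theorem summable_partTerm (r : ℤ) {η u : ℂ} (hη : ‖η‖ = 1) (hu : ‖u‖ < 1) :
    Summable (partTerm p r η u) := by
  have hb := summable_prod_mul_pow (𝕜 := ℝ) 1 (r := ‖u‖) (by rwa [norm_norm])
  refine Summable.of_norm_bounded hb fun x => ?_
  obtain ⟨m, d⟩ := x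
  simp only [partTerm, pow_one]
  split_ifs
  · rw [norm_mul, norm_pow, norm_mul, hη, one_mul, norm_pow, ← pow_mul, Complex.norm_natCast]
  · rw [norm_zero]; positivity

theorem hasSum_partTerm_row (r : ℤ) {η u : ℂ} (hη : ‖η‖ = 1) (hu : ‖u‖ < 1) (m : ℕ+) :
    HasSum (fun d : ℕ+ => partTerm p r η u (m, d))
      (if (p : ℤ) ∣ (m : ℤ) - r then geoSq (η * u ^ (m : ℕ)) else 0) := by
  simp only [partTerm]
  split_ifs with h
  · have h1 : ‖η * u ^ (m : ℕ)‖ < 1 := by
      rw [norm_mul, hη, one_mul, norm_pow]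
      exact pow_lt_one₀ (norm_nonneg _) hu m.ne_zero
    refine (Function.Injective.hasSum_iff PNat.coe_injective (f := fun n : ℕ =>
      (n : ℂ) * (η * u ^ (m : ℕ)) ^ n) fun n hn => ?_).2 (hasSum_coe_mul_geometric_of_norm_lt_one h1)
    have : n = 0 := by
      by_contra h0
      exact hn ⟨⟨n, Nat.pos_of_ne_zero h0⟩, rfl⟩
    simp [this]
  · exact hasSum_zero

theorem hasSum_class [NeZero p] {η u : ℂ} (hη : ‖η‖ = 1) (hu : ‖u‖ < 1) {r : ℕ} (hr : 0 < r)
    (hrp : r ≤ p) :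
    HasSum (fun n : ℕ => geoSq (η * u ^ (r + p * n))) (∑' x, partTerm p r η u x) := by
  have h : HasSum (fun m : ℕ+ => if (p : ℤ) ∣ (m : ℤ) - (r : ℤ) then geoSq (η * u ^ (m : ℕ)) else 0)
      (∑' x, partTerm p r η u x) :=
    (summable_partTerm (p := p) r hη hu).hasSum.prod_fiberwise (hasSum_partTerm_row r hη hu)
  let φ : ℕ → ℕ+ := fun n => ⟨r + p * n, by positivity⟩
  have hφ : Function.Injective φ := fun a b hab => by
    simpa [φ, NeZero.ne p] using congrArg Subtype.val hab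
  refine ((hφ.hasSum_iff (f := fun m : ℕ+ => if (p : ℤ) ∣ (m : ℤ) - (r : ℤ) then
    geoSq (η * u ^ (m : ℕ)) else 0) fun m hm => if_neg fun hd => hm ?_).2 h).congr_fun fun n => ?_
  · obtain ⟨k, hk⟩ := hd
    have hk0 : 0 ≤ k := by
      by_contra hneg
      have h1 : (p : ℤ) * k ≤ -(p : ℤ) := by nlinarith
      have h2 : (0 : ℤ) < (m : ℕ) := by exact_mod_cast m.pos
      omega
    obtain ⟨n, rfl⟩ := Int.eq_ofNat_of_zero_le hk0
    refine ⟨n, Subtype.ext ?_⟩
    show r + p * n = (m : ℕ)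
    have : ((r + p * n : ℕ) : ℤ) = (m : ℕ) := by push_cast; omega
    exact_mod_cast this
  · show geoSq _ = if (p : ℤ) ∣ (((r + p * n : ℕ)) : ℤ) - (r : ℤ) then geoSq _ else 0
    rw [if_pos (by push_cast; simp)]
    rfl

theorem partTerm_congr {r r' : ℤ} (h : (p : ℤ) ∣ r - r') (η u : ℂ) :
    partTerm p r η u = partTerm p r' η u := by
  funext x
  simp only [partTerm]
  refine if_congr ?_ rfl rfl
  rw [show (x.1 : ℤ) - r' = ((x.1 : ℤ) - r) + (r - r') by ring, dvd_add_left h]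

theorem rowSum_ratio [NeZero p] (τ : ℍ) {M : ℕ} (hM : 0 < M) (β : ℤ) :
    rowSum (((M : ℂ) * τ + β) / p) = geoSq (eta p β * qp p τ ^ M) := by
  have him : 0 < ((((M : ℂ) * τ + β) / p)).im := by
    rw [Complex.div_natCast_im]
    have hp : (0 : ℝ) < p := by exact_mod_cast Nat.pos_of_ne_zero (NeZero.ne p)
    have hMR : (0 : ℝ) < M := by exact_mod_cast hM
    simp only [Complex.add_im, Complex.mul_im, Complex.natCast_re, Complex.natCast_im, zero_mul,
      add_zero, Complex.intCast_im, UpperHalfPlane.coe_im]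
    positivity
  rw [rowSum_of_im_pos him, qp_eq, eta, ← Complex.exp_nat_mul, ← Complex.exp_add]
  congr 2
  rw [tpi]
  ring

theorem rowSum_neg_ratio [NeZero p] (τ : ℍ) {a : ℕ} (ha : a < p) (b : ℤ) (n : ℕ) :
    rowSum (zPt p a b τ + ((-(n + 1 : ℤ)) : ℤ) * τ) =
      geoSq ((eta p b)⁻¹ * qp p τ ^ ((p - a) + p * n)) := by
  have hp : (p : ℂ) ≠ 0 := Nat.cast_ne_zero.2 (NeZero.ne p)
  rw [← rowSum_neg, eta_inv, ← rowSum_ratio τ (by omega) (-b)]
  congr 1
  rw [zPt, Nat.cast_add, Nat.cast_sub ha.le]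
  push_cast
  field_simp
  ring

theorem rowSum_pos_ratio [NeZero p] (τ : ℍ) (a : ℕ) (b : ℤ) (n : ℕ) (hn : 0 < a + p * n) :
    rowSum (zPt p a b τ + (n : ℂ) * τ) = geoSq (eta p b * qp p τ ^ (a + p * n)) := by
  have hp : (p : ℂ) ≠ 0 := Nat.cast_ne_zero.2 (NeZero.ne p)
  rw [← rowSum_ratio τ hn b]
  congr 1
  rw [zPt]
  push_cast
  field_simp
  ring

theorem rowSum_succ_mul [NeZero p] (τ : ℍ) (n : ℕ) :
    rowSum (((n + 1 : ℕ) : ℂ) * τ) = geoSq (qp p τ ^ (p + p * n)) := by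
  have hp : (p : ℂ) ≠ 0 := Nat.cast_ne_zero.2 (NeZero.ne p)
  have hpos : 0 < p + p * n := Nat.add_pos_left (Nat.pos_of_ne_zero (NeZero.ne p)) _
  have h := rowSum_ratio (p := p) τ (M := p + p * n) hpos 0
  rw [show eta p 0 = 1 by simp [eta], one_mul] at h
  rw [← h]
  congr 1
  push_cast
  field_simp
  ring

theorem rowSum_zPt_zero [NeZero p] (τ : ℍ) {b : ℤ} (hb : ¬ (p : ℤ) ∣ b) :
    rowSum (zPt p (0 : ℕ) b τ) = geoSq (eta p b) := by
  have hp : (p : ℝ) ≠ 0 := Nat.cast_ne_zero.2 (NeZero.ne p)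
  rw [show zPt p (0 : ℕ) b τ = (((b : ℝ) / p : ℝ) : ℂ) by simp [zPt],
    rowSum_real fun n hn => hb ⟨-n, ?_⟩]
  · rw [show eta p b = cexp (tpi * b / p) from rfl]
    congr 2
    push_cast
    ring
  · have h1 : (b : ℝ) = ((p * -n : ℤ) : ℝ) := by
      push_cast
      field_simp at hn
      linarith
    exact_mod_cast h1

/-- The rows of `℘((a τ + b) / p)` in terms of the residue classes. -/
theorem xVal_eq [NeZero p] (τ : ℍ) {a : ℕ} (ha : a < p) {b : ℤ} (hab : a ≠ 0 ∨ ¬ (p : ℤ) ∣ b) :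
    xVal p a b τ = xCoeff p (a : ℤ) (eta p b) 0 +
      ((∑' x, partTerm p a (eta p b) (qp p τ) x) +
        (∑' x, partTerm p (-(a : ℤ)) (eta p b)⁻¹ (qp p τ) x) -
        2 * ∑' x, partTerm p 0 1 (qp p τ) x) := by
  have hu : ‖qp p τ‖ < 1 := norm_qp_lt_one p τ
  have hη : ‖eta p b‖ = 1 := norm_eta p b
  have hη' : ‖(eta p b)⁻¹‖ = 1 := by rw [norm_inv, hη, inv_one]
  have hp : 0 < p := Nat.pos_of_ne_zero (NeZero.ne p)
  have hC : HasSum (fun n : ℕ => rowSum (((n + 1 : ℕ) : ℂ) * τ))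
      (∑' x, partTerm p 0 1 (qp p τ) x) := by
    have h := hasSum_class (p := p) (η := 1) norm_one hu hp le_rfl
    rw [partTerm_congr (r' := 0) (by simp) 1 (qp p τ)] at h
    exact h.congr_fun fun n => by rw [rowSum_succ_mul (p := p), one_mul]
  have hneg : HasSum (fun n : ℕ => rowSum (zPt p a b τ + ((-(n + 1 : ℤ)) : ℤ) * τ) -
      rowSum (((-(n + 1 : ℤ)) : ℤ) * τ))
      ((∑' x, partTerm p (-(a : ℤ)) (eta p b)⁻¹ (qp p τ) x) -
        ∑' x, partTerm p 0 1 (qp p τ) x) := by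
    have h := hasSum_class (p := p) hη' hu (Nat.sub_pos_of_lt ha) (Nat.sub_le p a)
    rw [partTerm_congr (r' := -(a : ℤ)) (by rw [Nat.cast_sub ha.le]; simp) _ (qp p τ)] at h
    refine (h.sub hC).congr_fun fun n => ?_
    rw [rowSum_neg_ratio τ ha, Int.cast_neg, neg_mul, rowSum_neg]
    push_cast
    rfl
  have hA : HasSum (fun n : ℕ => rowSum (zPt p a b τ + (n : ℂ) * τ))
      ((if (p : ℤ) ∣ (a : ℤ) then geoSq (eta p b) else 0) +
        ∑' x, partTerm p a (eta p b) (qp p τ) x) := by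
    rcases Nat.eq_zero_or_pos a with rfl | ha0
    · have h := hasSum_class (p := p) hη hu hp le_rfl
      rw [partTerm_congr (r' := ((0 : ℕ) : ℤ)) (by simp) _ (qp p τ)] at h
      have h1 : HasSum (fun n : ℕ => rowSum (zPt p (0 : ℕ) b τ + ((n + 1 : ℕ) : ℂ) * τ))
          (∑' x, partTerm p (0 : ℕ) (eta p b) (qp p τ) x) := by
        refine h.congr_fun fun n => ?_
        rw [rowSum_pos_ratio τ 0 b (n + 1) (by rw [zero_add]; exact Nat.mul_pos hp n.succ_pos)]
        congr 3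
        ring
      have h2 := (hasSum_nat_add_iff (f := fun n : ℕ =>
        rowSum (zPt p (0 : ℕ) b τ + (n : ℂ) * τ)) 1).1 h1
      have h0 := rowSum_zPt_zero (p := p) τ (hab.resolve_left fun h => h rfl)
      simp only [Finset.sum_range_one, Nat.cast_zero, zero_mul, add_zero] at h0 h2 ⊢
      rw [h0, add_comm] at h2
      rwa [if_pos (dvd_zero _)]
    · have hnd : ¬ (p : ℤ) ∣ (a : ℤ) := by
        rw [Int.natCast_dvd_natCast]
        exact fun h => absurd (Nat.le_of_dvd ha0 h) (not_le.2 ha)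
      rw [if_neg hnd, zero_add]
      exact (hasSum_class (p := p) hη hu ha0 ha.le).congr_fun fun n =>
        rowSum_pos_ratio τ a b n (by omega)
  have hD : HasSum (fun n : ℕ => rowSum ((n : ℂ) * τ))
      (-(1 / 12) + ∑' x, partTerm p 0 1 (qp p τ) x) := by
    have h2 := (hasSum_nat_add_iff (f := fun n : ℕ => rowSum ((n : ℂ) * τ)) 1).1 hC
    rwa [Finset.sum_range_one, Nat.cast_zero, zero_mul, rowSum_zero, add_comm] at h2
  have hpos : HasSum (fun n : ℕ => rowSum (zPt p a b τ + (((n : ℕ) : ℤ) : ℂ) * τ) -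
      rowSum ((((n : ℕ) : ℤ) : ℂ) * τ))
      (xCoeff p (a : ℤ) (eta p b) 0 + ((∑' x, partTerm p a (eta p b) (qp p τ) x) -
        ∑' x, partTerm p 0 1 (qp p τ) x)) := by
    have he : xCoeff p (a : ℤ) (eta p b) 0 + ((∑' x, partTerm p a (eta p b) (qp p τ) x) -
        ∑' x, partTerm p 0 1 (qp p τ) x) =
        ((if (p : ℤ) ∣ (a : ℤ) then geoSq (eta p b) else 0) +
          ∑' x, partTerm p a (eta p b) (qp p τ) x) -
        (-(1 / 12) + ∑' x, partTerm p 0 1 (qp p τ) x) := by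
      simp only [xCoeff, geoSq]
      ring
    rw [he]
    exact (hA.sub hD).congr_fun fun n => by rw [Int.cast_natCast]
  have hall := HasSum.of_nat_of_neg_add_one
    (f := fun m : ℤ => rowSum (zPt p a b τ + m * τ) - rowSum (m * τ)) hpos hneg
  rw [show xVal p a b τ = (latPair τ).weierstrassP (zPt p a b τ) / tpi ^ 2 from rfl,
    (hasSum_rows τ (zPt p a b τ)).unique hall]
  ring

/-- The weight of `(M, d)` in the coefficient of `M d`. -/
def xWeight (p : ℕ) (a : ℤ) (η : ℂ) (M d : ℕ) : ℂ :=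
  (d : ℂ) * ((if (p : ℤ) ∣ (M : ℤ) - a then η ^ d else 0) +
    (if (p : ℤ) ∣ (M : ℤ) + a then η⁻¹ ^ d else 0) - (if (p : ℤ) ∣ (M : ℤ) then 2 else 0))

theorem partTerm_sum (a : ℤ) (η u : ℂ) (x : ℕ+ × ℕ+) :
    partTerm p a η u x + partTerm p (-a) η⁻¹ u x - 2 * partTerm p 0 1 u x =
      xWeight p a η x.1 x.2 * u ^ ((x.1 : ℕ) * x.2) := by
  simp only [partTerm, xWeight, sub_neg_eq_add, sub_zero]
  split_ifs <;> ring

theorem xCoeff_succ (a : ℤ) (η : ℂ) (N : ℕ) :
    xCoeff p a η (N + 1) = ∑ x ∈ Nat.divisorsAntidiagonal (N + 1), xWeight p a η x.2 x.1 := rfl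

theorem hasSum_xCoeff [NeZero p] (a : ℤ) {η u : ℂ} (hη : ‖η‖ = 1) (hu : ‖u‖ < 1) :
    HasSum (fun N : ℕ => xCoeff p a η N * u ^ N)
      (xCoeff p a η 0 + ((∑' x, partTerm p a η u x) + (∑' x, partTerm p (-a) η⁻¹ u x) -
        2 * ∑' x, partTerm p 0 1 u x)) := by
  have hη' : ‖η⁻¹‖ = 1 := by rw [norm_inv, hη, inv_one]
  have h := (((summable_partTerm (p := p) a hη hu).hasSum.add
    (summable_partTerm (p := p) (-a) hη' hu).hasSum).sub
    ((summable_partTerm (p := p) 0 norm_one hu).hasSum.mul_left 2)).congr_fun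
    fun x => (partTerm_sum (p := p) a η u x).symm
  have h2 := (sigmaAntidiagonalEquivProd.hasSum_iff).2 h
  have h3 := h2.sigma (g := fun N : ℕ+ => xCoeff p a η N * u ^ (N : ℕ)) fun N => ?_
  · rw [← hasSum_nat_add_iff' 1, Finset.sum_range_one, pow_zero, mul_one, add_sub_cancel_left]
    refine (Equiv.pnatEquivNat.symm.hasSum_iff.2 h3).congr_fun fun n => ?_
    simp [Nat.succPNat]
  · have hval : xCoeff p a η N =
        ∑ x ∈ (Nat.divisorsAntidiagonal N).attach, xWeight p a η x.1.1 x.1.2 := by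
      obtain ⟨k, hk⟩ := Nat.exists_eq_succ_of_ne_zero N.ne_zero
      rw [Finset.sum_attach (Nat.divisorsAntidiagonal N)
        (fun x : ℕ × ℕ => xWeight p a η x.1 x.2), hk, xCoeff_succ]
      exact Nat.sum_divisorsAntidiagonal (fun x y => xWeight p a η y x) |>.trans
        (Nat.sum_divisorsAntidiagonal' (fun x y => xWeight p a η x y)).symm
    rw [hval, Finset.sum_mul, ← Finset.univ_eq_attach]
    refine (hasSum_fintype _).congr_fun fun x => ?_
    obtain ⟨⟨m, d⟩, hx⟩ := x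
    simp only [Function.comp_apply, sigmaAntidiagonalEquivProd, Equiv.coe_fn_mk,
      divisorsAntidiagonalFactors, PNat.mk_coe]
    try rw [(Nat.mem_divisorsAntidiagonal.1 hx).1]

theorem eta_add_mul (b k : ℤ) [NeZero p] : eta p (b + p * k) = eta p b := by
  rw [eta, eta, show tpi * ((b + p * k : ℤ) : ℂ) / p = tpi * b / p + (k : ℂ) * (2 * π * I) by
    have : (p : ℂ) ≠ 0 := Nat.cast_ne_zero.2 (NeZero.ne p)
    push_cast
    rw [tpi]
    field_simp]
  rw [Complex.exp_add, Complex.exp_int_mul_two_pi_mul_I, mul_one]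

theorem xVal_congr [NeZero p] (a b k l : ℤ) (τ : ℍ) :
    xVal p (a + p * k) (b + p * l) τ = xVal p a b τ := by
  rw [xVal, xVal, show zPt p (a + p * k) (b + p * l) τ = zPt p a b τ + ((k : ℂ) * τ + l) by
    have : (p : ℂ) ≠ 0 := Nat.cast_ne_zero.2 (NeZero.ne p)
    simp only [zPt]
    push_cast
    field_simp
    ring]
  have hmem : (k : ℂ) * τ + l ∈ (latPair τ).lattice := mem_latPair.2 ⟨k, l, rfl⟩
  rw [show (latPair τ).weierstrassP (zPt p a b τ + ((k : ℂ) * τ + l)) =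
    (latPair τ).weierstrassP (zPt p a b τ) from (latPair τ).weierstrassP_add_coe _ ⟨_, hmem⟩]

theorem xCoeff_congr {K : Type*} [Field K] (a k : ℤ) (η : K) :
    xCoeff p (a + p * k) η = xCoeff p a η := by
  funext N
  have h1 : ∀ x : ℤ, ((p : ℤ) ∣ x - (a + p * k)) ↔ (p : ℤ) ∣ x - a := fun x => by
    rw [show x - (a + p * k) = (x - a) + p * (-k) by ring, dvd_add_left (dvd_mul_right _ _)]
  have h2 : ∀ x : ℤ, ((p : ℤ) ∣ x + (a + p * k)) ↔ (p : ℤ) ∣ x + a := fun x => by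
    rw [← add_assoc, dvd_add_left (dvd_mul_right _ _)]
  have h3 : ((p : ℤ) ∣ a + p * k) ↔ (p : ℤ) ∣ a := dvd_add_left (dvd_mul_right _ _)
  cases N <;> simp [xCoeff, h1, h2, h3]

/-- **The expansion of `℘` at a point of order dividing `p`.** -/
theorem hasExp_xVal [NeZero p] (a b : ℤ) (hab : ¬ ((p : ℤ) ∣ a ∧ (p : ℤ) ∣ b)) :
    HasExp (qp p) (xVal p a b)
      (HahnSeries.ofPowerSeries ℤ ℂ (xSer p a (eta p b))) := by
  refine hasExp_ofPowerSeries fun τ => ?_
  obtain ⟨r, hr⟩ := Int.eq_ofNat_of_zero_le (Int.emod_nonneg a (b := (p : ℤ))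
    (by exact_mod_cast NeZero.ne p))
  have hrp : r < p := by
    have := Int.emod_lt_of_pos a (b := (p : ℤ)) (by exact_mod_cast Nat.pos_of_ne_zero (NeZero.ne p))
    omega
  have ha : a = (r : ℤ) + p * (a / p) := by
    rw [← hr]; exact (Int.emod_add_mul_ediv a p).symm
  have hx : xVal p a b τ = xVal p r b τ := by
    rw [ha, show b = b + (p : ℤ) * 0 by ring, xVal_congr]
    simp
  have hab' : r ≠ 0 ∨ ¬ (p : ℤ) ∣ b := by
    refine or_iff_not_imp_left.2 fun h0 hb => hab ⟨?_, hb⟩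
    rw [not_not] at h0
    rw [ha, h0]
    simp
  have h := hasSum_xCoeff (p := p) (r : ℤ) (norm_eta p b) (norm_qp_lt_one p τ)
  rw [← xVal_eq τ hrp hab', ← hx, ← xCoeff_congr (r : ℤ) (a / p), ← ha] at h
  simpa [xSer] using h

end FA.Mazur.Wp
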